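import Mathlib.LinearAlgebra.QuadraticForm.Basic
import Mathlib.LinearAlgebra.Trace

/-!
# The trace of an adjoint times the map

For a positive definite symmetric form over an ordered field an adjoint pair `g`, `f` with `f ≠ 0` has
`0 < tr(g f)`; adjoints exist and are unique.
-/

set_option autoImplicit false
set_option linter.style.haveILetI false

noncomputable section

open Module

namespace FA.PositiveInvolution

variable {V : Type*} [AddCommGroup V] [Module ℚ V] [FiniteDimensional ℚ V]
  {B : LinearMap.BilinForm ℚ V} (hsymm : B.IsSymm) (hpos : ∀ x, x ≠ 0 → 0 < B x x)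

omit [FiniteDimensional ℚ V] in
include hpos in
theorem eq_of_forall_form_eq {x y : V} (h : ∀ z, B z x = B z y) : x = y := by
  by_contra hne
  refine (hpos _ (sub_ne_zero.2 hne)).ne' ?_
  rw [map_sub, h, sub_self]

include hpos in
/-- **Adjoints exist.** -/
theorem exists_adjoint (f : V →ₗ[ℚ] V) : ∃ g : V →ₗ[ℚ] V, ∀ x y, B (g x) y = B x (f y) := by
  have hinj : Function.Injective B := (injective_iff_map_eq_zero _).2 fun x hx => by
    by_contra hne
    exact (hpos x hne).ne' (by rw [hx]; rfl)
  have hsurj : Function.Surjective B :=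
    (LinearMap.injective_iff_surjective_of_finrank_eq_finrank
      (Subspace.dual_finrank_eq (K := ℚ) (V := V)).symm).1 hinj
  refine ⟨(LinearEquiv.ofBijective B ⟨hinj, hsurj⟩).symm.toLinearMap ∘ₗ f.dualMap ∘ₗ B,
    fun x y => ?_⟩
  have h := LinearEquiv.apply_symm_apply (LinearEquiv.ofBijective B ⟨hinj, hsurj⟩) (f.dualMap (B x))
  exact LinearMap.congr_fun h y

include hsymm hpos in
/-- **The trace of an adjoint times the map is positive.** -/
theorem trace_adjoint_comp_pos {f g : V →ₗ[ℚ] V} (hadj : ∀ x y, B (g x) y = B x (f y))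
    (hf : f ≠ 0) : 0 < LinearMap.trace ℚ V (g ∘ₗ f) := by
  haveI : Invertible (2 : ℚ) := invertibleOfNonzero two_ne_zero
  obtain ⟨v, hv⟩ := LinearMap.BilinForm.exists_orthogonal_basis hsymm
  have hrepr : ∀ x i, v.repr x i * B (v i) (v i) = B (v i) x := fun x i => by
    conv_rhs => rw [← v.sum_repr x]
    rw [map_sum, Finset.sum_eq_single i (fun j _ hj => by
      rw [map_smul, LinearMap.isOrthoᵢ_def.1 hv i j hj.symm, smul_zero]) fun h => absurd (Finset.mem_univ i) h,
      map_smul, smul_eq_mul]
  obtain ⟨i₀, hi₀⟩ : ∃ i, f (v i) ≠ 0 := by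
    by_contra! h
    exact hf (v.ext h)
  have hterm : ∀ i, v.repr ((g ∘ₗ f) (v i)) i = B (f (v i)) (f (v i)) / B (v i) (v i) := fun i => by
    rw [eq_div_iff (hpos _ (v.ne_zero i)).ne', hrepr, LinearMap.comp_apply,
      show B (v i) (g (f (v i))) = B (g (f (v i))) (v i) from hsymm.eq _ _, hadj]
  rw [LinearMap.trace_eq_matrix_trace ℚ v, Matrix.trace]
  refine Finset.sum_pos' (fun i _ => ?_) ⟨i₀, Finset.mem_univ _, ?_⟩
  · rw [Matrix.diag_apply, LinearMap.toMatrix_apply, hterm]
    refine div_nonneg ?_ (hpos _ (v.ne_zero i)).le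
    rcases eq_or_ne (f (v i)) 0 with h | h
    · simp [h]
    · exact (hpos _ h).le
  · rw [Matrix.diag_apply, LinearMap.toMatrix_apply, hterm]
    exact div_pos (hpos _ hi₀) (hpos _ (v.ne_zero _))

end FA.PositiveInvolution

end
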