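import Mathlib.NumberTheory.NumberField.CMField
import Mathlib.RingTheory.Trace.Basic

/-!
# Number fields with positive trace forms

If `Tr(τ z z) > 0` for all `z ≠ 0` then `τ` induces complex conjugation under every embedding, so the
field is totally real or CM. If `Tr(a z²) > 0` for all `z ≠ 0` then `a` is positive at every real
embedding.
-/

set_option autoImplicit false
set_option linter.style.haveILetI false

noncomputable section

open NumberField Module
open scoped ComplexConjugate

namespace FA.PositiveInvolution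

variable {Z : Type*} [Field Z] [NumberField Z]

/-- Approximation of targets at the infinite places. -/
theorem exists_near (t : InfinitePlace Z → Z) {ε : ℝ} (hε : 0 < ε) :
    ∃ z : Z, ∀ φ : Z →+* ℂ, ‖φ z - φ (t (InfinitePlace.mk φ))‖ < ε := by
  let U : Set ((w : InfinitePlace Z) → WithAbs w.1) :=
    Set.univ.pi fun w => {y | w.1 (WithAbs.ofAbs y - t w) < ε}
  have hU : IsOpen U := isOpen_set_pi Set.finite_univ fun w _ => by
    have h : {y : WithAbs w.1 | w.1 (WithAbs.ofAbs y - t w) < ε} =
        Metric.ball (WithAbs.toAbs w.1 (t w)) ε := by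
      ext y
      rw [Metric.mem_ball, dist_eq_norm]
      rfl
    rw [h]
    exact Metric.isOpen_ball
  obtain ⟨z, hz⟩ := (InfinitePlace.denseRange_algebraMap_pi Z).exists_mem_open hU
    ⟨fun w => WithAbs.toAbs w.1 (t w), fun w _ => by
      show w.1 (t w - t w) < ε
      simp [hε]⟩
  refine ⟨z, fun φ => ?_⟩
  rw [← map_sub, ← InfinitePlace.apply φ]
  exact hz (InfinitePlace.mk φ) trivial

theorem trace_eq_sum_re (x : Z) :
    (Algebra.trace ℚ Z x : ℝ) = ∑ σ : Z →ₐ[ℚ] ℂ, (σ x).re := by
  have h := congrArg Complex.re (trace_eq_sum_embeddings ℂ (K := ℚ) (x := x))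
  simpa using h

/-- One very negative term makes the trace negative. -/
theorem trace_neg {x : Z} (φ₀ : Z →+* ℂ) {η δ : ℝ} (h0 : (φ₀ x).re ≤ -δ)
    (hle : ∀ φ : Z →+* ℂ, (φ x).re ≤ η) (hη : (finrank ℚ Z : ℝ) * η < δ) (hη0 : 0 ≤ η) :
    Algebra.trace ℚ Z x < 0 := by
  classical
  suffices h : (Algebra.trace ℚ Z x : ℝ) < 0 by exact_mod_cast h
  rw [trace_eq_sum_re, ← Finset.add_sum_erase _ _ (Finset.mem_univ φ₀.toRatAlgHom)]
  have h1 : ∑ σ ∈ Finset.univ.erase φ₀.toRatAlgHom, (σ x).re ≤ (finrank ℚ Z : ℝ) * η := by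
    refine (Finset.sum_le_card_nsmul _ _ η fun σ _ => hle σ.toRingHom).trans ?_
    rw [nsmul_eq_mul]
    refine mul_le_mul_of_nonneg_right ?_ hη0
    rw [← AlgHom.card ℚ Z ℂ]
    exact_mod_cast (Finset.card_le_univ _)
  have h2 : (φ₀.toRatAlgHom x).re ≤ -δ := h0
  linarith

theorem re_mul_le {a b : ℂ} {ε : ℝ} (hb : ‖b‖ ≤ ε) (ha : ‖a‖ ≤ ε) : (a * b).re ≤ ε ^ 2 := by
  refine (Complex.re_le_norm _).trans ?_
  rw [norm_mul, sq]
  exact mul_le_mul ha hb (norm_nonneg _) ((norm_nonneg _).trans ha)

/-- Near `1` times near `-1` is near `-1`. -/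
theorem re_mul_le_neg_half {a b : ℂ} {ε : ℝ} (hε : ε ≤ 1 / 8) (ha : ‖a - 1‖ ≤ ε) (hb : ‖b + 1‖ ≤ ε) :
    (a * b).re ≤ -(1 / 2) := by
  have hε0 : 0 ≤ ε := (norm_nonneg _).trans ha
  have h := re_mul_le hb ha
  have e : a * b = (a - 1) * (b + 1) + (b + 1) - (a - 1) - 1 := by ring
  rw [e, Complex.sub_re, Complex.sub_re, Complex.add_re, Complex.one_re]
  have h1 := (Complex.abs_re_le_norm (a - 1)).trans ha
  have h2 := (Complex.abs_re_le_norm (b + 1)).trans hb
  rw [abs_le] at h1 h2
  nlinarith [h1.1, h2.2]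

/-- **A positive involution of a field is complex conjugation under every embedding.** -/
theorem comp_eq_conj (τ : Z →+* Z) (hτ : ∀ z, τ (τ z) = z)
    (hpos : ∀ z : Z, z ≠ 0 → 0 < Algebra.trace ℚ Z (τ z * z)) (φ₀ : Z →+* ℂ) :
    φ₀.comp τ = (starRingEnd ℂ).comp φ₀ := by
  classical
  by_contra hne
  set n := finrank ℚ Z
  have hn : (0 : ℝ) < n := Nat.cast_pos.2 Module.finrank_pos
  set w₀ := InfinitePlace.mk φ₀
  set w₁ := InfinitePlace.mk (φ₀.comp τ)
  have hperm : ∀ φ : Z →+* ℂ,
      InfinitePlace.mk (φ.comp τ) = (InfinitePlace.mk φ).comap τ := fun φ =>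
    (InfinitePlace.comap_mk φ τ).symm
  have hττ : (φ₀.comp τ).comp τ = φ₀ := RingHom.ext fun z => congrArg φ₀ (hτ z)
  have hw₀₁ : w₀.comap τ = w₁ := (hperm φ₀).symm
  have hw₁₀ : w₁.comap τ = w₀ := by rw [← hperm, hττ]
  suffices hex : ∃ z : Z, Algebra.trace ℚ Z (τ z * z) < 0 by
    obtain ⟨z, hz⟩ := hex
    by_cases h0 : z = 0
    · simp [h0] at hz
    · exact lt_asymm hz (hpos z h0)
  by_cases heq : w₁ = w₀
  · -- the embedding is not real and `τ` is the identity
    rcases InfinitePlace.mk_eq_iff.1 heq with h | h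
    swap
    · exact absurd (RingHom.ext fun z => by
        have := congrArg (conj) (RingHom.congr_fun h z)
        simpa [ComplexEmbedding.conjugate_coe_eq] using this) hne
    have hid : ∀ z, τ z = z := fun z => φ₀.injective (RingHom.congr_fun h z)
    obtain ⟨β, hβ⟩ : ∃ β : Z, (φ₀ β).im ≠ 0 := by
      by_contra! hreal
      exact hne (h.trans (RingHom.ext fun z =>
        (Complex.conj_eq_iff_im.2 (hreal z)).symm))
    set c := |(φ₀ β).im| with hc
    have hc0 : 0 < c := abs_pos.2 hβ
    obtain ⟨r, hr1, hr2⟩ := exists_rat_btwn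
      (show (φ₀ β).re - c / 4 < (φ₀ β).re + c / 4 by linarith)
    set q : Z := β - (r : Z) with hq
    set ε := c / (4 * (n + 1)) with hεdef
    have hε : 0 < ε := by positivity
    have hεc : ε ≤ c / 4 := by
      rw [hεdef]
      exact div_le_div_of_nonneg_left hc0.le (by norm_num) (by linarith)
    obtain ⟨z, hz⟩ := exists_near (fun w => if w = w₀ then q else 0) hε
    have hbig : ∀ φ : Z →+* ℂ, InfinitePlace.mk φ = w₀ → (φ (τ z * z)).re ≤ -(5 * c ^ 2 / 16) := by
      intro φ hφ
      have h1 := hz φ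
      rw [if_pos hφ] at h1
      have him : |(φ q).im| = c ∧ |(φ q).re| < c / 4 := by
        rcases InfinitePlace.mk_eq_iff.1 hφ with e | e
        · subst e
          simp only [hq, map_sub, map_ratCast, Complex.sub_im, Complex.sub_re, Complex.ratCast_im,
            Complex.ratCast_re, sub_zero, abs_lt]
          exact ⟨hc.symm, by linarith, by linarith⟩
        · have e' : φ = ComplexEmbedding.conjugate φ₀ := by
            rw [← e]
            exact (RingHom.ext fun x => (Complex.conj_conj _).symm)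
          subst e'
          simp only [hq, map_sub, map_ratCast, ComplexEmbedding.conjugate_coe_eq, Complex.sub_im,
            Complex.sub_re, Complex.ratCast_im, Complex.ratCast_re, sub_zero, Complex.conj_im,
            Complex.conj_re, abs_neg, abs_lt]
          exact ⟨hc.symm, by linarith, by linarith⟩
      have h3 := (Complex.abs_re_le_norm _).trans h1.le
      have h4 := (Complex.abs_im_le_norm _).trans h1.le
      rw [Complex.sub_re] at h3
      rw [Complex.sub_im] at h4
      have h5 : |(φ z).re| ≤ c / 2 := by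
        have := abs_add_le ((φ z).re - (φ q).re) (φ q).re
        rw [sub_add_cancel] at this
        linarith [him.2]
      have h6 : 3 * c / 4 ≤ |(φ z).im| := by
        have := abs_sub_abs_le_abs_sub (φ q).im (φ z).im
        rw [abs_sub_comm] at h4
        linarith [him.1]
      rw [hid, map_mul, Complex.mul_re]
      nlinarith [abs_nonneg (φ z).re, sq_abs (φ z).re, sq_abs (φ z).im]
    refine ⟨z, trace_neg φ₀ (hbig φ₀ rfl) (η := ε ^ 2) (fun φ => ?_) ?_ (sq_nonneg _)⟩
    · by_cases hφ : InfinitePlace.mk φ = w₀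
      · exact (hbig φ hφ).trans (by nlinarith)
      · have h1 := hz φ
        rw [if_neg hφ, map_zero, sub_zero] at h1
        rw [hid, map_mul]
        exact re_mul_le h1.le h1.le
    · have h1 : (n : ℝ) * ε ≤ c / 4 := by
        rw [hεdef, ← mul_div_assoc, div_le_iff₀ (by positivity)]
        nlinarith
      nlinarith [mul_le_mul h1 hεc hε.le (by linarith), sq_pos_of_pos hc0]
  · -- two places exchanged by `τ`
    set ε : ℝ := 1 / (8 * (n + 1)) with hεdef
    have hε : 0 < ε := by positivity
    have hε8 : ε ≤ 1 / 8 := by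
      rw [hεdef]
      exact div_le_div_of_nonneg_left one_pos.le (by norm_num) (by linarith)
    obtain ⟨z, hz⟩ := exists_near (fun w => if w = w₀ then 1 else if w = w₁ then -1 else 0) hε
    have hbig : ∀ φ : Z →+* ℂ, InfinitePlace.mk φ = w₀ ∨ InfinitePlace.mk φ = w₁ →
        (φ (τ z * z)).re ≤ -(1 / 2) := by
      intro φ hφ
      have h1 := hz φ
      have h2 := hz (φ.comp τ)
      rw [hperm] at h2
      rw [map_mul]
      rcases hφ with h | h
      · rw [if_pos h, map_one] at h1
        rw [h, hw₀₁, if_neg heq, if_pos rfl, map_neg, map_one, sub_neg_eq_add] at h2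
        rw [mul_comm]
        exact re_mul_le_neg_half hε8 h1.le h2.le
      · rw [if_neg (h.trans_ne heq), if_pos h, map_neg, map_one, sub_neg_eq_add] at h1
        rw [h, hw₁₀, if_pos rfl, map_one] at h2
        exact re_mul_le_neg_half hε8 h2.le h1.le
    refine ⟨z, trace_neg φ₀ (hbig φ₀ (Or.inl rfl)) (η := ε ^ 2) (fun φ => ?_) ?_ (sq_nonneg _)⟩
    · by_cases hφ : InfinitePlace.mk φ = w₀ ∨ InfinitePlace.mk φ = w₁
      · exact (hbig φ hφ).trans (by nlinarith)
      · push Not at hφ
        have h1 := hz φ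
        rw [if_neg hφ.1, if_neg hφ.2, map_zero, sub_zero] at h1
        have h2 := hz (φ.comp τ)
        have hback : InfinitePlace.mk φ = (InfinitePlace.mk (φ.comp τ)).comap τ := by
          rw [← hperm]
          exact congrArg _ (RingHom.ext fun x => (congrArg φ (hτ x)).symm)
        rw [if_neg (fun e => hφ.2 (by rw [hback, e, hw₀₁])),
          if_neg (fun e => hφ.1 (by rw [hback, e, hw₁₀])), map_zero, sub_zero] at h2
        rw [map_mul]
        exact re_mul_le h1.le h2.le
    · have h1 : (n : ℝ) * ε ^ 2 * 64 * (n + 1) ^ 2 = n := by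
        rw [hεdef, div_pow]
        field_simp
        ring
      nlinarith

/-- **The trivial positive involution: the field is totally real.** -/
theorem isTotallyReal_of_positive (hpos : ∀ z : Z, z ≠ 0 → 0 < Algebra.trace ℚ Z (z * z)) :
    IsTotallyReal Z where
  isReal w := by
    rw [← InfinitePlace.mk_embedding w, InfinitePlace.isReal_mk_iff, ComplexEmbedding.isReal_iff]
    exact ((RingHom.comp_id _).symm.trans
      (comp_eq_conj (RingHom.id Z) (fun _ => rfl) hpos w.embedding)).symm

/-- **A nontrivial positive involution: the field is CM.** -/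
theorem isCMField_of_positive (τ : Z →+* Z) (hτ : ∀ z, τ (τ z) = z) (hne : τ ≠ RingHom.id Z)
    (hpos : ∀ z : Z, z ≠ 0 → 0 < Algebra.trace ℚ Z (τ z * z)) : IsCMField Z := by
  have hconj := comp_eq_conj τ hτ hpos
  haveI : IsTotallyComplex Z := ⟨fun w => InfinitePlace.not_isReal_iff_isComplex.1 fun hr => hne
    (RingHom.ext fun z => w.embedding.injective
      ((RingHom.congr_fun (hconj w.embedding) z).trans
        (RingHom.congr_fun (ComplexEmbedding.isReal_iff.1 (InfinitePlace.isReal_iff.1 hr)) z)))⟩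
  let g : Z ≃ₐ[ℚ] Z := AlgEquiv.ofRingEquiv (f := RingEquiv.ofRingHom τ τ
    (RingHom.ext hτ) (RingHom.ext hτ)) (fun q => by simp)
  have hg : ∀ z, g z = τ z := fun _ => rfl
  set F := IntermediateField.fixedField (Subgroup.zpowers g)
  have hfix : ∀ x : F, τ x = x := fun x => x.2 ⟨g, Subgroup.mem_zpowers g⟩
  haveI : IsTotallyReal F := ⟨fun v => by
    obtain ⟨w, rfl⟩ := InfinitePlace.comap_surjective (K := Z) v
    dsimp only
    rw [← InfinitePlace.mk_embedding w, InfinitePlace.comap_mk, InfinitePlace.isReal_mk_iff,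
      ComplexEmbedding.isReal_iff]
    refine RingHom.ext fun x => ?_
    show conj (w.embedding (x : Z)) = w.embedding (x : Z)
    conv_rhs => rw [← hfix x]
    exact (RingHom.congr_fun (hconj w.embedding) (x : Z)).symm⟩
  haveI : Algebra.IsQuadraticExtension F Z := ⟨by
    rw [IntermediateField.finrank_fixedField_eq_card, Nat.card_zpowers]
    refine orderOf_eq_prime (AlgEquiv.ext fun z => ?_) fun h => hne (RingHom.ext fun z => ?_)
    · rw [pow_two]
      exact hτ z
    · rw [RingHom.id_apply, ← hg, h, AlgEquiv.one_apply]⟩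
  exact IsCMField.ofCMExtension F Z

/-- **Positivity of a weighted trace form forces total positivity.** -/
theorem pos_of_trace_pos {a : Z} (ha : ∀ z : Z, z ≠ 0 → 0 < Algebra.trace ℚ Z (z * z * a))
    (ψ : Z →+* ℝ) : 0 < ψ a := by
  classical
  have ha0 : a ≠ 0 := by
    rintro rfl
    simpa using ha 1 one_ne_zero
  by_contra hneg
  have hneg' : ψ a < 0 := lt_of_le_of_ne (not_lt.1 hneg) ((map_ne_zero ψ).2 ha0)
  set φ₀ : Z →+* ℂ := Complex.ofRealHom.comp ψ
  set w₀ := InfinitePlace.mk φ₀
  set n := finrank ℚ Z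
  have hn : (0 : ℝ) < n := Nat.cast_pos.2 Module.finrank_pos
  set A := ∑ σ : Z →ₐ[ℚ] ℂ, ‖σ a‖
  have hAle : ∀ φ : Z →+* ℂ, ‖φ a‖ ≤ A := fun φ =>
    Finset.single_le_sum (f := fun σ : Z →ₐ[ℚ] ℂ => ‖σ a‖) (fun _ _ => norm_nonneg _)
      (Finset.mem_univ φ.toRatAlgHom)
  have hA : 0 ≤ A := Finset.sum_nonneg fun _ _ => norm_nonneg _
  set ε : ℝ := min (1 / 2) (-ψ a / (8 * (n + 1) * (A + 1))) with hεdef
  have hε : 0 < ε := lt_min (by norm_num) (div_pos (by linarith) (by positivity))
  have hε2 : ε ≤ 1 / 2 := min_le_left _ _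
  have hεA : ε * (8 * (n + 1) * (A + 1)) ≤ -ψ a :=
    (le_div_iff₀ (by positivity)).1 (min_le_right _ _)
  obtain ⟨z, hz⟩ := exists_near (fun w => if w = w₀ then 1 else 0) hε
  have hbig : (φ₀ (z * z * a)).re ≤ ψ a / 4 := by
    have h1 := hz φ₀
    rw [if_pos rfl, map_one, show φ₀ z - 1 = ((ψ z - 1 : ℝ) : ℂ) by simp [φ₀], Complex.norm_real,
      Real.norm_eq_abs, abs_lt] at h1
    have h2 : 1 / 2 ≤ ψ z := by linarith [h1.1]
    show (((ψ (z * z * a) : ℝ) : ℂ)).re ≤ _
    rw [Complex.ofReal_re, map_mul, map_mul]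
    nlinarith [mul_le_mul h2 h2 (by norm_num) (by linarith)]
  have hle : ∀ φ : Z →+* ℂ, (φ (z * z * a)).re ≤ ε ^ 2 * A := fun φ => by
    by_cases hφ : InfinitePlace.mk φ = w₀
    · have he : φ = φ₀ := by
        rcases InfinitePlace.mk_eq_iff.1 hφ with e | e
        · exact e
        · exact RingHom.ext fun x => by
            have := congrArg conj (RingHom.congr_fun e x)
            simpa [φ₀, ComplexEmbedding.conjugate_coe_eq] using this
      rw [he]
      exact hbig.trans (le_trans (by linarith) (mul_nonneg (sq_nonneg _) hA))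
    · have h1 := hz φ
      rw [if_neg hφ, map_zero, sub_zero] at h1
      refine (Complex.re_le_norm _).trans ?_
      rw [map_mul, map_mul, norm_mul, norm_mul, sq]
      exact mul_le_mul (mul_le_mul h1.le h1.le (norm_nonneg _) hε.le) (hAle φ) (norm_nonneg _)
        (by positivity)
  have hz0 : z ≠ 0 := by
    rintro rfl
    rw [mul_zero, zero_mul, map_zero, Complex.zero_re] at hbig
    linarith
  refine lt_asymm (trace_neg φ₀ (δ := -ψ a / 4) ?_ hle ?_ (by positivity)) (ha z hz0)
  · linarith
  · have hεle : ε ^ 2 ≤ ε := by nlinarith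
    nlinarith [mul_nonneg hn.le hA, mul_le_mul_of_nonneg_right hεle (mul_nonneg hn.le hA)]

end FA.PositiveInvolution

end
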