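import Fermat.Agent.BrauerInvariant.Classification
import Fermat.Agent.PositiveInvolution.Centre
import Fermat.Agent.PositiveInvolution.Adjoint

/-!
# Albert's theorem on division algebras with positive involution

The centre is totally real or CM; when it is totally real the algebra is its own opposite, so of
exponent and index at most `2`: the centre itself or a quaternion algebra over it.
-/

set_option autoImplicit false
set_option linter.style.haveILetI false

noncomputable section

open NumberField Module
open FA.BrauerTheory FA.BrauerInvariant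
open scoped TensorProduct

namespace FA.PositiveInvolution

variable {D : Type} [DivisionRing D] [Algebra ℚ D]

/-- An anti-automorphism of order at most two with positive trace form. -/
structure IsPositiveInvolution (s : D →ₗ[ℚ] D) : Prop where
  map_mul : ∀ x y, s (x * y) = s y * s x
  involutive : ∀ x, s (s x) = x
  trace_pos : ∀ x, x ≠ 0 → 0 < LinearMap.trace ℚ D (LinearMap.mulLeft ℚ (s x * x))

theorem IsPositiveInvolution.map_one {s : D →ₗ[ℚ] D} (hs : IsPositiveInvolution s) : s 1 = 1 := by
  have h := hs.map_mul (s 1) 1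
  rw [mul_one, hs.involutive, mul_one] at h
  exact h.symm

variable {Z : Type} [Field Z] [NumberField Z] [Algebra Z D] [Algebra.IsCentral Z D]

omit [Algebra.IsCentral Z D] in
theorem isScalarTower_rat : IsScalarTower ℚ Z D :=
  IsScalarTower.of_algebraMap_eq' (Subsingleton.elim _ _)

omit [NumberField Z] in
/-- An involution restricts to the centre. -/
theorem IsPositiveInvolution.exists_centre {s : D →ₗ[ℚ] D} (hs : IsPositiveInvolution s) :
    ∃ τ : Z →+* Z, (∀ z, τ (τ z) = z) ∧ ∀ z, s (algebraMap Z D z) = algebraMap Z D (τ z) := by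
  have hmem : ∀ z : Z, ∃ z' : Z, algebraMap Z D z' = s (algebraMap Z D z) := fun z => by
    have h : s (algebraMap Z D z) ∈ Subalgebra.center Z D := Subalgebra.mem_center_iff.2 fun y => by
      rw [← hs.involutive y, ← hs.map_mul, ← hs.map_mul, Algebra.commutes]
    rw [Algebra.IsCentral.center_eq_bot] at h
    exact Algebra.mem_bot.1 h
  choose f hf using hmem
  have hinj := (algebraMap Z D).injective
  refine ⟨
    { toFun := f
      map_one' := hinj (by rw [hf, (algebraMap Z D).map_one, hs.map_one])
      map_mul' := fun a b => hinj (by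
        rw [hf, (algebraMap Z D).map_mul, (algebraMap Z D).map_mul, hs.map_mul, ← hf a, ← hf b,
          Algebra.commutes])
      map_zero' := hinj (by rw [hf, map_zero, map_zero])
      map_add' := fun a b => hinj (by rw [hf, map_add, map_add, map_add, hf, hf]) }, fun z => ?_,
    fun z => (hf z).symm⟩
  exact hinj (show algebraMap Z D (f (f z)) = _ by rw [hf, hf, hs.involutive])

variable [FiniteDimensional Z D]

omit [Algebra.IsCentral Z D] in
theorem trace_mulLeft_algebraMap (z : Z) :
    LinearMap.trace ℚ D (LinearMap.mulLeft ℚ (algebraMap Z D z)) =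
      finrank Z D • Algebra.trace ℚ Z z := by
  haveI := isScalarTower_rat (Z := Z) (D := D)
  haveI : FiniteDimensional ℚ D := Module.Finite.trans Z D
  let b := Module.Free.chooseBasis ℚ Z
  let c := Module.Free.chooseBasis Z D
  rw [LinearMap.trace_eq_matrix_trace ℚ (b.smulTower c), Algebra.trace_eq_matrix_trace b,
    Matrix.trace, Matrix.trace, Fintype.sum_prod_type, Finset.smul_sum,
    Module.finrank_eq_card_chooseBasisIndex Z D]
  refine Finset.sum_congr rfl fun i _ => ?_
  rw [← Finset.card_univ, ← Finset.sum_const]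
  refine Finset.sum_congr rfl fun j _ => ?_
  rw [Matrix.diag_apply, Matrix.diag_apply, LinearMap.toMatrix_apply,
    Algebra.leftMulMatrix_eq_repr_mul, Module.Basis.smulTower_apply, Module.Basis.smulTower_repr,
    LinearMap.mulLeft_apply, ← Algebra.smul_def, smul_smul, map_smul, Finsupp.smul_apply,
    Module.Basis.repr_self, Finsupp.single_eq_same, smul_eq_mul, mul_one]

omit [Algebra.IsCentral Z D] in
theorem IsPositiveInvolution.centre_trace_pos {s : D →ₗ[ℚ] D} (hs : IsPositiveInvolution s)
    {τ : Z →+* Z} (hτ : ∀ z, s (algebraMap Z D z) = algebraMap Z D (τ z)) {z : Z} (hz : z ≠ 0) :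
    0 < Algebra.trace ℚ Z (τ z * z) := by
  have h := hs.trace_pos _ ((map_ne_zero (algebraMap Z D)).2 hz)
  rw [hτ, ← _root_.map_mul, trace_mulLeft_algebraMap, nsmul_eq_mul] at h
  exact (mul_pos_iff_of_pos_left (Nat.cast_pos.2 Module.finrank_pos)).1 h

omit [Algebra ℚ D] in
/-- **A division algebra isomorphic to its opposite has index at most two.** -/
theorem finrank_of_algEquiv_op (e : D ≃ₐ[Z] Dᵐᵒᵖ) : finrank Z D = 1 ∨ finrank Z D = 4 := by
  have h : classOf Z D = (classOf Z D)⁻¹ := by
    rw [classOf, mk_inv]
    exact mk_eq_iff.2 (equivalent_of_algEquiv e)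
  have h2 : orderOf (classOf Z D) ∣ 2 :=
    orderOf_dvd_of_pow_eq_one (by rw [pow_two]; exact eq_inv_iff_mul_eq_one.1 h)
  rw [finrank_eq_sq (D := D)]
  rcases (Nat.dvd_prime Nat.prime_two).1 h2 with h | h <;> simp [h]

/-- **Albert's theorem.** -/
theorem IsPositiveInvolution.albert {s : D →ₗ[ℚ] D} (hs : IsPositiveInvolution s) :
    (IsTotallyReal Z ∧ (finrank Z D = 1 ∨ finrank Z D = 4) ∧
      ∀ z : Z, s (algebraMap Z D z) = algebraMap Z D z) ∨
    (IsCMField Z ∧ ∀ (z : Z) (φ : Z →+* ℂ), ∃ z' : Z,
      s (algebraMap Z D z) = algebraMap Z D z' ∧ φ z' = starRingEnd ℂ (φ z)) := by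
  obtain ⟨τ, hτ, hτs⟩ := hs.exists_centre (Z := Z)
  have hpos : ∀ z : Z, z ≠ 0 → 0 < Algebra.trace ℚ Z (τ z * z) :=
    fun z hz => hs.centre_trace_pos hτs hz
  by_cases hid : τ = RingHom.id Z
  · subst hid
    refine Or.inl ⟨isTotallyReal_of_positive hpos, finrank_of_algEquiv_op ?_, hτs⟩
    let f : D →ₐ[Z] Dᵐᵒᵖ :=
      { toFun := fun x => MulOpposite.op (s x)
        map_one' := by rw [hs.map_one]; rfl
        map_mul' := fun x y => by rw [hs.map_mul]; rfl
        map_zero' := by rw [map_zero]; rfl
        map_add' := fun x y => by rw [map_add]; rfl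
        commutes' := fun z => by
          show MulOpposite.op (s (algebraMap Z D z)) = _
          rw [hτs]
          rfl }
    exact AlgEquiv.ofBijective f ⟨fun x y h => by
        rw [← hs.involutive x, ← hs.involutive y]
        exact congrArg (fun t => s (MulOpposite.unop t)) h,
      fun y => ⟨s (MulOpposite.unop y), by
        show MulOpposite.op (s (s (MulOpposite.unop y))) = y
        rw [hs.involutive, MulOpposite.op_unop]⟩⟩
  · exact Or.inr ⟨isCMField_of_positive τ hτ hid hpos, fun z φ => ⟨τ z, hτs z,
      RingHom.congr_fun (comp_eq_conj τ hτ hpos φ) z⟩⟩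

end FA.PositiveInvolution

end
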