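import Fermat.Agent.BrauerInvariant.NormTheorem
import Fermat.Agent.PositiveInvolution.Albert

/-!
# Quaternion algebras with positive involution

They are split at every real place or at none: either a symmetric quadratic element has totally
positive square, or every pure element has totally negative square.
-/

set_option autoImplicit false
set_option linter.style.haveILetI false

noncomputable section

open NumberField InfinitePlace Module Polynomial
open FA.BrauerTheory FA.BrauerInvariant

namespace FA.PositiveInvolution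

variable {D : Type} [DivisionRing D] {Z : Type} [Field Z] [NumberField Z] [Algebra Z D]
  [Algebra.IsCentral Z D] [FiniteDimensional Z D]

omit [NumberField Z] in
theorem natDegree_minpoly_eq_two (hd : finrank Z D = 4) {x : D}
    (hx : x ∉ (algebraMap Z D).range) : (minpoly Z x).natDegree = 2 := by
  have hint : IsIntegral Z x := .of_finite Z x
  haveI : Fact (Irreducible (minpoly Z x)) := ⟨minpoly.irreducible hint⟩
  let f : AdjoinRoot (minpoly Z x) →ₐ[Z] D :=
    Ideal.Quotient.liftₐ _ (aeval x) fun q hq => by
      obtain ⟨r, rfl⟩ := Ideal.mem_span_singleton'.1 hq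
      simp
  have hf : Function.Injective f := f.toRingHom.injective
  have hcomm : ∀ p ∈ f.range, ∀ q ∈ f.range, p * q = q * p := by
    rintro _ ⟨p, rfl⟩ _ ⟨q, rfl⟩
    show f p * f q = f q * f p
    rw [← map_mul, mul_comm, map_mul]
  haveI := FA.CSA.isSimpleRing_of_comm f.range hcomm
  have hle : f.range ≤ Subalgebra.centralizer Z (f.range : Set D) := fun p hp =>
    (Subalgebra.mem_centralizer_iff Z).2 fun q hq => hcomm q hq p hp
  have h1 := FA.CSA.finrank_centralizer f.range
  have h2 : finrank Z f.range ≤ finrank Z (Subalgebra.centralizer Z (f.range : Set D)) :=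
    Submodule.finrank_mono (s := Subalgebra.toSubmodule f.range)
      (t := Subalgebra.toSubmodule (Subalgebra.centralizer Z (f.range : Set D))) hle
  have h3 : finrank Z f.range = (minpoly Z x).natDegree := by
    rw [← (AlgEquiv.ofInjective f hf).toLinearEquiv.finrank_eq,
      (AdjoinRoot.powerBasis (minpoly.ne_zero hint)).finrank, AdjoinRoot.powerBasis_dim]
  have h4 : (minpoly Z x).natDegree ≠ 1 := fun h => hx (minpoly.natDegree_eq_one_iff.1 h)
  have h5 := minpoly.natDegree_pos hint
  rw [hd] at h1
  rw [h3] at h1 h2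
  refine le_antisymm ?_ (by omega)
  nlinarith

omit [NumberField Z] in
/-- A noncentral element of a quaternion algebra is a shift of a square root. -/
theorem exists_sqrt_shift (hd : finrank Z D = 4) [CharZero Z] {y : D}
    (hy : y ∉ (algebraMap Z D).range) :
    ∃ c a : Z, (y + algebraMap Z D c) * (y + algebraMap Z D c) = algebraMap Z D a := by
  set p := minpoly Z y
  have hp : p.natDegree = 2 := natDegree_minpoly_eq_two hd hy
  have hm : p.coeff 2 = 1 := hp ▸ (minpoly.monic (.of_finite Z y)).coeff_natDegree
  have h := minpoly.aeval Z y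
  rw [show minpoly Z y = p from rfl, aeval_eq_sum_range, hp, Finset.sum_range_succ,
    Finset.sum_range_succ, Finset.sum_range_one, hm, pow_zero, pow_one, one_smul, pow_two] at h
  refine ⟨p.coeff 1 / 2, p.coeff 1 ^ 2 / 4 - p.coeff 0, ?_⟩
  have e : p.coeff 1 = 2 * (p.coeff 1 / 2) := by ring
  rw [Algebra.smul_def, Algebra.smul_def, mul_one, e, map_mul, map_ofNat] at h
  rw [show p.coeff 1 ^ 2 / 4 - p.coeff 0 = p.coeff 1 / 2 * (p.coeff 1 / 2) - p.coeff 0 by ring,
    map_sub, map_mul, add_mul, mul_add, mul_add, ← Algebra.commutes, eq_sub_iff_add_eq]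
  rw [mul_assoc, two_mul] at h
  calc _ = algebraMap Z D (p.coeff 1 / 2) * algebraMap Z D (p.coeff 1 / 2) +
      (algebraMap Z D (p.coeff 0) + (algebraMap Z D (p.coeff 1 / 2) * y +
        algebraMap Z D (p.coeff 1 / 2) * y) + y * y) := by abel
    _ = _ := by rw [h, add_zero]

/-- **A square root positive at a real place splits the algebra there.** -/
theorem invAtInf_eq_zero_of_sqrt (hd : finrank Z D = 4) {x : D}
    (hx : x ∉ (algebraMap Z D).range) {a : Z} (ha : x * x = algebraMap Z D a) (ψ : Z →+* ℝ)
    (hpos : 0 < ψ a) :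
    invAtInf (InfinitePlace.mk (Complex.ofRealHom.comp ψ)) (classOf Z D) = 0 := by
  classical
  have hint : IsIntegral Z x := .of_finite Z x
  have hmin : minpoly Z x = X ^ 2 - C a := by
    refine (eq_of_monic_of_dvd_of_natDegree_le (minpoly.monic hint) (monic_X_pow_sub_C a two_ne_zero)
      (minpoly.dvd Z x (by simp [pow_two, ha])) (le_of_eq ?_)).symm
    rw [natDegree_minpoly_eq_two hd hx, natDegree_X_pow_sub_C]
  haveI : Fact (Irreducible (minpoly Z x)) := ⟨minpoly.irreducible hint⟩
  let L := AdjoinRoot (minpoly Z x)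
  haveI : FiniteDimensional Z L := (AdjoinRoot.powerBasis (minpoly.ne_zero hint)).finite
  haveI : NumberField L := NumberField.of_module_finite Z L
  let f : L →ₐ[Z] D :=
    Ideal.Quotient.liftₐ _ (aeval x) fun q hq => by
      obtain ⟨r, rfl⟩ := Ideal.mem_span_singleton'.1 hq
      simp
  have hdim : finrank Z D = finrank Z L ^ 2 := by
    rw [hd, (AdjoinRoot.powerBasis (minpoly.ne_zero hint)).finrank, AdjoinRoot.powerBasis_dim,
      natDegree_minpoly_eq_two hd hx]
    rfl
  obtain ⟨-, hw⟩ :=
    (restriction_eq_one_iff_invariants (F := L) _).1 ((nonempty_algHom_iff hdim).1 ⟨f⟩)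
  have hev : (minpoly Z x).eval₂ ψ (Real.sqrt (ψ a)) = 0 := by
    rw [hmin, eval₂_sub, eval₂_X_pow, eval₂_C, Real.sq_sqrt hpos.le, sub_self]
  let ψ' : L →+* ℝ := AdjoinRoot.lift ψ (Real.sqrt (ψ a)) hev
  have h := hw _ (isReal_mk_real ψ')
  have hcomp : ψ'.comp (algebraMap Z L) = ψ :=
    RingHom.ext fun z => AdjoinRoot.lift_of hev
  rwa [comap_mk_real, hcomp] at h

variable [Algebra ℚ D]

/-- **Albert's types II and III: split at every real place or at none.** -/
theorem IsPositiveInvolution.real_places [IsTotallyReal Z] {s : D →ₗ[ℚ] D}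
    (hs : IsPositiveInvolution s) (hd : finrank Z D = 4) :
    (∀ w : InfinitePlace Z, invAtInf w (classOf Z D) = 0) ∨
      ∀ w : InfinitePlace Z, invAtInf w (classOf Z D) ≠ 0 := by
  classical
  have hfix : ∀ z : Z, s (algebraMap Z D z) = algebraMap Z D z := by
    rcases hs.albert (Z := Z) with ⟨-, -, h⟩ | ⟨hcm, -⟩
    · exact h
    · obtain ⟨w⟩ : Nonempty (InfinitePlace Z) := inferInstance
      exact absurd (IsTotallyReal.isReal w)
        (not_isReal_iff_isComplex.2 (IsTotallyComplex.isComplex w))
  have hw : ∀ w : InfinitePlace Z, ∃ ψ : Z →+* ℝ,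
      InfinitePlace.mk (Complex.ofRealHom.comp ψ) = w := fun w =>
    ⟨embedding_of_isReal (IsTotallyReal.isReal w), by
      conv_rhs => rw [← mk_embedding w]
      congr 1
      exact RingHom.ext fun l => embedding_of_isReal_apply _ l⟩
  -- the square of a symmetric or skew square root
  have hsign : ∀ {x : D} {a : Z} (ε : Z), x ∉ (algebraMap Z D).range →
      s x = algebraMap Z D ε * x → x * x = algebraMap Z D a → ∀ ψ : Z →+* ℝ, 0 < ψ (ε * a) := by
    intro x a ε hx hsx ha
    refine pos_of_trace_pos fun z hz => ?_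
    have hx0 : x ≠ 0 := fun h => hx (h ▸ zero_mem _)
    have h := hs.trace_pos _ (mul_ne_zero ((_root_.map_ne_zero (algebraMap Z D)).2 hz) hx0)
    have e : s (algebraMap Z D z * x) * (algebraMap Z D z * x) =
        algebraMap Z D (z * z * (ε * a)) := by
      rw [hs.map_mul, hfix, hsx]
      calc algebraMap Z D ε * x * algebraMap Z D z * (algebraMap Z D z * x)
          = algebraMap Z D ε * (x * (algebraMap Z D (z * z))) * x := by
            rw [(algebraMap Z D).map_mul]; noncomm_ring
        _ = algebraMap Z D ε * algebraMap Z D (z * z) * (x * x) := by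
            rw [← Algebra.commutes]; noncomm_ring
        _ = _ := by
            rw [ha, ← (algebraMap Z D).map_mul, ← (algebraMap Z D).map_mul]
            congr 1
            ring
    rw [e, trace_mulLeft_algebraMap, nsmul_eq_mul] at h
    exact (mul_pos_iff_of_pos_left (Nat.cast_pos.2 Module.finrank_pos)).1 h
  by_cases hsym : ∃ y : D, y ∉ (algebraMap Z D).range ∧ s y = y
  · obtain ⟨y, hy, hsy⟩ := hsym
    obtain ⟨c, a, ha⟩ := exists_sqrt_shift hd hy
    have hx : y + algebraMap Z D c ∉ (algebraMap Z D).range := fun h => hy (by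
      simpa using sub_mem h ((algebraMap Z D).mem_range_self c))
    refine Or.inl fun w => ?_
    obtain ⟨ψ, rfl⟩ := hw w
    have h := hsign 1 hx (by rw [map_add, hsy, hfix, (algebraMap Z D).map_one, one_mul]) ha ψ
    rw [one_mul] at h
    exact invAtInf_eq_zero_of_sqrt hd hx ha ψ h
  · push Not at hsym
    have hneg : ∀ {x : D} {a : Z}, x ∉ (algebraMap Z D).range → x * x = algebraMap Z D a →
        ∀ ψ : Z →+* ℝ, ψ a < 0 := by
      intro x a hx ha ψ
      obtain ⟨c, hc⟩ : x + s x ∈ (algebraMap Z D).range := by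
        by_contra h
        exact hsym _ h (by rw [map_add, hs.involutive, add_comm])
      have hsx : s x = algebraMap Z D c - x := by rw [hc]; abel
      have h2 : s x * s x = algebraMap Z D a := by rw [← hs.map_mul, ha, hfix]
      have hc0 : c = 0 := by
        by_contra hc0
        refine hx ⟨c / 2, ?_⟩
        rw [hsx, sub_mul, mul_sub, mul_sub, ← Algebra.commutes c x, ha, sub_eq_iff_eq_add,
          add_sub_cancel, sub_eq_iff_eq_add, ← two_mul, ← map_ofNat (algebraMap Z D) 2, ← mul_assoc,
          ← (algebraMap Z D).map_mul, ← (algebraMap Z D).map_mul] at h2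
        have h3 := congrArg (fun t => algebraMap Z D (2 * c)⁻¹ * t) h2
        rw [← mul_assoc, ← (algebraMap Z D).map_mul, ← (algebraMap Z D).map_mul,
          inv_mul_cancel₀ (mul_ne_zero two_ne_zero hc0), (algebraMap Z D).map_one, one_mul] at h3
        rw [← h3]
        congr 1
        field_simp
      have h := hsign (-1) hx (by rw [hsx, hc0, map_zero, zero_sub, map_neg, _root_.map_one, neg_one_mul])
        ha ψ
      rw [neg_one_mul, map_neg] at h
      linarith
    refine Or.inr fun w hzero => ?_
    obtain ⟨ψ₀, hψ₀⟩ := hw w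
    obtain ⟨z, hz⟩ := exists_near (fun v => if v = w then (-1 : Z) else 1) (ε := 1 / 2) (by norm_num)
    have hval : ∀ ψ : Z →+* ℝ, |ψ z -
        (if InfinitePlace.mk (Complex.ofRealHom.comp ψ) = w then -1 else 1)| < 1 / 2 := fun ψ => by
      have h := hz (Complex.ofRealHom.comp ψ)
      split_ifs at h ⊢ <;>
      · simp only [RingHom.comp_apply, Complex.ofRealHom_eq_coe, map_neg, _root_.map_one] at h
        simpa using (Complex.abs_re_le_norm _).trans_lt h
    have hz₀ : ψ₀ z < 0 := by
      have h := hval ψ₀
      rw [if_pos hψ₀, abs_lt] at h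
      linarith [h.2]
    have hz0 : z ≠ 0 := fun h => by simp [h] at hz₀
    obtain ⟨L, _, _, _, hdim, ⟨f⟩, θ, hθ⟩ :=
      (hasse_schilling_maass (D := D) (Units.mk0 z hz0)).2 fun ψ hψ => by
        have h := hval ψ
        rw [if_neg (fun h' : _ = w => hψ ((congrArg (fun v => invAtInf v (classOf Z D)) h').trans hzero)),
          abs_lt] at h
        show 0 < ψ z
        linarith [h.1]
    obtain ⟨l, hl⟩ : ∃ l : L, l ∉ (algebraMap Z L).range := by
      by_contra! h
      have h1 : finrank Z L = 1 := Subalgebra.bot_eq_top_iff_finrank_eq_one.1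
        (eq_top_iff.2 fun y _ => Algebra.mem_bot.2 (h y))
      rw [hd, h1] at hdim
      norm_num at hdim
    have hy : f l ∉ (algebraMap Z D).range := by
      rintro ⟨c, hc⟩
      exact hl ⟨c, f.toRingHom.injective ((f.commutes c).trans hc)⟩
    obtain ⟨c, a, ha⟩ := exists_sqrt_shift hd hy
    have hl2 : (l + algebraMap Z L c) * (l + algebraMap Z L c) = algebraMap Z L a :=
      f.toRingHom.injective (by
        show f _ = f _
        rw [_root_.map_mul, map_add, f.commutes, f.commutes, ha])
    have hx : f l + algebraMap Z D c ∉ (algebraMap Z D).range := fun h => hy (by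
      simpa using sub_mem h ((algebraMap Z D).mem_range_self c))
    have hθ0 : θ ≠ 0 := by
      rintro rfl
      rw [Algebra.norm_zero] at hθ
      exact hz0 hθ.symm
    have hpos : 0 < ψ₀ (Algebra.norm Z θ) := by
      refine FA.ArtinRec.norm_pos_of_positive_above hθ0 ψ₀ fun ψ hψ => absurd (hneg hx ha ψ₀) ?_
      rw [← hψ, RingHom.comp_apply, ← hl2, _root_.map_mul]
      exact not_lt.2 (mul_self_nonneg _)
    rw [hθ] at hpos
    exact lt_asymm hz₀ hpos

end FA.PositiveInvolution

end
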