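import Fermat.Agent.PositiveInvolution.Albert
import Mathlib.RingTheory.SimpleModule.Basic
import Mathlib.Algebra.MonoidAlgebra.Basic

/-!
# The endomorphisms of an irreducible rational representation

The adjoint for an invariant inner product is a positive involution of the endomorphism algebra.
-/

set_option autoImplicit false
set_option linter.style.haveILetI false

noncomputable section

open Module MonoidAlgebra

namespace FA.PositiveInvolution

variable (G : Type) [Group G] [Fintype G] (M : Type) [AddCommGroup M]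
  [Module (MonoidAlgebra ℚ G) M] [Module ℚ M] [IsScalarTower ℚ (MonoidAlgebra ℚ G) M]
  [FiniteDimensional ℚ M]

omit [IsScalarTower ℚ (MonoidAlgebra ℚ G) M] in
/-- **An invariant inner product.** -/
theorem exists_invariant_form :
    ∃ B : LinearMap.BilinForm ℚ M, LinearMap.IsSymm B ∧ (∀ x, x ≠ 0 → 0 < B x x) ∧
      ∀ (g : G) x y, B (of ℚ G g • x) (of ℚ G g • y) = B x y := by
  let b := Module.finBasis ℚ M
  let act : G → M →ₗ[ℚ] M := fun g =>
    { toFun := fun x => of ℚ G g • x
      map_add' := fun x y => smul_add _ x y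
      map_smul' := fun c x => smul_comm (of ℚ G g) c x }
  let e : G → Fin (finrank ℚ M) → M →ₗ[ℚ] ℚ := fun g i => b.coord i ∘ₗ act g
  have he : ∀ g i x, e g i x = b.repr (of ℚ G g • x) i := fun g i x => rfl
  set B : LinearMap.BilinForm ℚ M :=
    ∑ g : G, ∑ i, LinearMap.BilinForm.linMulLin (e g i) (e g i)
  have hB : ∀ x y, B x y = ∑ g : G, ∑ i, e g i x * e g i y := fun x y => by
    simp [B, LinearMap.BilinForm.linMulLin_apply]
  refine ⟨B, ⟨fun x y => ?_⟩, fun x hx => ?_, fun h x y => ?_⟩
  · simp only [hB, RingHom.id_apply, mul_comm]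
  · rw [hB]
    obtain ⟨i, hi⟩ : ∃ i, e 1 i x ≠ 0 := by
      by_contra! h
      refine hx (b.repr.injective (Finsupp.ext fun i => ?_))
      simpa [he, map_one] using h i
    refine Finset.sum_pos' (fun g _ => Finset.sum_nonneg fun i _ => mul_self_nonneg _)
      ⟨1, Finset.mem_univ _, Finset.sum_pos' (fun i _ => mul_self_nonneg _)
        ⟨i, Finset.mem_univ _, mul_self_pos.2 hi⟩⟩
  · rw [hB, hB]
    refine Fintype.sum_equiv (Equiv.mulRight h) _ _ fun g => ?_
    simp only [he, Equiv.coe_mulRight, ← mul_smul, ← map_mul]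

variable [IsSimpleModule (MonoidAlgebra ℚ G) M]
  [DecidableEq (Module.End (MonoidAlgebra ℚ G) M)]

/-- **The adjoint is a positive involution.** -/
theorem exists_positiveInvolution :
    ∃ s : Module.End (MonoidAlgebra ℚ G) M →ₗ[ℚ] Module.End (MonoidAlgebra ℚ G) M,
      IsPositiveInvolution s := by
  obtain ⟨B, hsymm, hpos, hinv⟩ := exists_invariant_form G M
  have hex : ∀ f : Module.End (MonoidAlgebra ℚ G) M, ∃ g : Module.End (MonoidAlgebra ℚ G) M,
      ∀ x y, B (g x) y = B x (f y) := fun f => by
    obtain ⟨g, hg⟩ := exists_adjoint hpos (f.restrictScalars ℚ)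
    refine ⟨{ toFun := g, map_add' := g.map_add, map_smul' := fun r x => ?_ }, hg⟩
    show g (r • x) = r • g x
    induction r using MonoidAlgebra.induction_on with
    | of h =>
      have hcancel : ∀ v : M, of ℚ G h • of ℚ G h⁻¹ • v = v := fun v => by
        rw [← mul_smul, ← map_mul, mul_inv_cancel, map_one, one_smul]
      refine eq_of_forall_form_eq hpos fun y => ?_
      rw [show B y (g (of ℚ G h • x)) = B (g (of ℚ G h • x)) y from hsymm.eq _ _, hg,
        show B y (of ℚ G h • g x) = B (of ℚ G h • g x) y from hsymm.eq _ _]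
      conv_lhs => rw [← hcancel ((f.restrictScalars ℚ) y), hinv]
      conv_rhs => rw [← hcancel y, hinv, hg]
      rw [LinearMap.restrictScalars_apply, LinearMap.restrictScalars_apply, f.map_smul]
    | add p q hp hq => rw [add_smul, map_add, hp, hq, add_smul]
    | smul c p hp => rw [smul_assoc, map_smul, hp, smul_assoc]
  choose s hs using hex
  have huniq : ∀ {f g : Module.End (MonoidAlgebra ℚ G) M},
      (∀ x y, B (g x) y = B x (f y)) → g = s f := fun {f g} h => LinearMap.ext fun x =>
    eq_of_forall_form_eq hpos fun y => by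
      rw [show B y (g x) = B (g x) y from hsymm.eq _ _, h,
        show B y (s f x) = B (s f x) y from hsymm.eq _ _, hs]
  let S : Module.End (MonoidAlgebra ℚ G) M →ₗ[ℚ] Module.End (MonoidAlgebra ℚ G) M :=
    { toFun := s
      map_add' := fun f g => (huniq fun x y => by
        rw [LinearMap.add_apply, LinearMap.add_apply, map_add, LinearMap.add_apply, hs, hs,
          map_add]).symm
      map_smul' := fun c f => (huniq fun x y => by
        rw [RingHom.id_apply, LinearMap.smul_apply, LinearMap.smul_apply, map_smul,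
          LinearMap.smul_apply, hs, map_smul]).symm }
  haveI : FiniteDimensional ℚ (Module.End (MonoidAlgebra ℚ G) M) :=
    FiniteDimensional.of_injective (LinearMap.restrictScalarsₗ ℚ (MonoidAlgebra ℚ G) M M ℚ)
      fun f g h => LinearMap.restrictScalars_injective ℚ h
  refine ⟨S, ⟨fun f g => (huniq fun x y => ?_).symm, fun f => (huniq fun x y => ?_).symm,
    fun f hf => ?_⟩⟩
  · show B (s g (s f x)) y = _
    rw [hs, hs]
    rfl
  · rw [show B (f x) y = B y (f x) from hsymm.eq _ _, ← hs]
    exact hsymm.eq _ _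
  -- the trace form of the endomorphism algebra
  let φ : Module.End (MonoidAlgebra ℚ G) M →ₗ[ℚ] Module.End ℚ M :=
    LinearMap.restrictScalarsₗ ℚ (MonoidAlgebra ℚ G) M M ℚ
  have hφ : ∀ a b, φ (a * b) = φ a ∘ₗ φ b := fun _ _ => rfl
  let Q : LinearMap.BilinForm ℚ (Module.End (MonoidAlgebra ℚ G) M) :=
    LinearMap.mk₂ ℚ (fun a b => LinearMap.trace ℚ M (φ (s a * b)))
      (fun a a' b => by rw [show s (a + a') = s a + s a' from S.map_add a a', add_mul, map_add,
        map_add])
      (fun c a b => by rw [show s (c • a) = c • s a from S.map_smul c a, smul_mul_assoc, map_smul,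
        map_smul])
      (fun a b b' => by rw [mul_add, map_add, map_add])
      (fun c a b => by rw [mul_smul_comm, map_smul, map_smul])
  have hQ : ∀ a b, Q a b = LinearMap.trace ℚ M (φ (s a * b)) := fun _ _ => rfl
  have hmul : ∀ a b, s (a * b) = s b * s a := fun a b => (huniq fun x y => by
    show B (s b (s a x)) y = _
    rw [hs, hs]
    rfl).symm
  have hss : ∀ a, s (s a) = a := fun a => (huniq fun x y => by
    rw [show B (a x) y = B y (a x) from hsymm.eq _ _, ← hs]
    exact hsymm.eq _ _).symm
  have hstr : ∀ a, LinearMap.trace ℚ M (φ (s a)) = LinearMap.trace ℚ M (φ a) := fun a => by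
    obtain ⟨v, hv⟩ := by
      haveI : Invertible (2 : ℚ) := invertibleOfNonzero two_ne_zero
      exact LinearMap.BilinForm.exists_orthogonal_basis hsymm
    rw [LinearMap.trace_eq_matrix_trace ℚ v, LinearMap.trace_eq_matrix_trace ℚ v]
    refine Finset.sum_congr rfl fun i _ => ?_
    rw [Matrix.diag_apply, Matrix.diag_apply, LinearMap.toMatrix_apply, LinearMap.toMatrix_apply]
    have hrepr : ∀ x i, v.repr x i * B (v i) (v i) = B (v i) x := fun x i => by
      conv_rhs => rw [← v.sum_repr x]
      rw [map_sum, Finset.sum_eq_single i (fun j _ hj => by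
        rw [map_smul, LinearMap.isOrthoᵢ_def.1 hv i j hj.symm, smul_zero])
          fun h => absurd (Finset.mem_univ i) h, map_smul, smul_eq_mul]
    refine mul_right_cancel₀ (hpos _ (v.ne_zero i)).ne' ?_
    rw [hrepr, hrepr]
    show B (v i) (s a (v i)) = B (v i) (a (v i))
    rw [← hs a]
    exact hsymm.eq _ _
  refine trace_adjoint_comp_pos (B := Q) (f := LinearMap.mulLeft ℚ f)
    (g := LinearMap.mulLeft ℚ (s f)) ⟨fun a b => ?_⟩ (fun a ha => ?_) (fun a b => ?_) ?_ |>.trans_eq
    (congrArg _ (LinearMap.mulLeft_mul ℚ _ (s f) f).symm)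
  · rw [RingHom.id_apply, hQ, hQ, ← hstr, hmul, hss]
  · rw [hQ, hφ]
    refine trace_adjoint_comp_pos hsymm hpos (fun x y => hs a x y) fun h => ha ?_
    exact LinearMap.restrictScalars_injective ℚ (h.trans (map_zero φ).symm)
  · rw [LinearMap.mulLeft_apply, LinearMap.mulLeft_apply, hQ, hQ, hmul, hss, mul_assoc]
  · exact fun h => hf (by simpa using LinearMap.congr_fun h 1)

end FA.PositiveInvolution

end
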